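/-
S24 package ALG4 (helper95): the degree of the divisor of a nonzero differential of a function
field `F / K` (Riemann–Hurwitz bookkeeping for the function `x`), proved from the outputs of the
packages FIB (fundamental identity, degree-one places, centres, principal divisors) and DIFF
(differentials), which are taken here as hypotheses.
-/
import Mathlib
import Fermat.Prelude.Def_AlgebraicCurve_CanonicalDivisor
import Fermat.Agent.S24.H52.AddVal

set_option autoImplicit false

open AlgebraicCurve KaehlerDifferential

noncomputable section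

namespace Fermat.Agent.S24.H95

variable {K F : Type*} [Field K] [Field F] [Algebra K F]

/-- Nonzero constants have order `0` at every place. -/
theorem ord_algebraMap (v : Place K F) (a : K) : v.ord (algebraMap K F a) = 0 := by
  rcases eq_or_ne a 0 with rfl | ha
  · simp
  have h1 : 0 ≤ v.ord (algebraMap K F a) := H52.ord_nonneg_of_mem v (v.algebraMap_mem' a)
  have h2 : 0 ≤ v.ord (algebraMap K F a⁻¹) := H52.ord_nonneg_of_mem v (v.algebraMap_mem' a⁻¹)
  rw [map_inv₀, v.ord_inv] at h2
  omega

/-- The ultrametric inequality for `ord` (with the junk value at `0` taken care of). -/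
theorem min_le_ord_add (v : Place K F) {f g : F} (hfg : f + g ≠ 0) :
    min (v.ord f) (v.ord g) ≤ v.ord (f + g) := by
  rcases eq_or_ne f 0 with rfl | hf
  · simp
  rcases eq_or_ne g 0 with rfl | hg
  · simp
  exact (H52.isAddVal_ord v).map_add hf hg hfg

theorem ord_neg (v : Place K F) (f : F) : v.ord (-f) = v.ord f := by
  rcases eq_or_ne f 0 with rfl | hf
  · simp
  exact (H52.isAddVal_ord v).map_neg f hf

/-- At a pole of `x`, the function `x - a` has the same order as `x`. -/
theorem ord_sub_algebraMap_of_neg (v : Place K F) {x : F} (hx : v.ord x < 0) (a : K) :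
    v.ord (x - algebraMap K F a) = v.ord x := by
  have hx0 : x ≠ 0 := by rintro rfl; simp at hx
  have hne : x - algebraMap K F a ≠ 0 := by
    intro h
    rw [sub_eq_zero] at h
    rw [h, ord_algebraMap] at hx
    exact lt_irrefl _ hx
  have h1 : min (v.ord x) (v.ord (-algebraMap K F a)) ≤ v.ord (x + -algebraMap K F a) :=
    min_le_ord_add v (by rwa [← sub_eq_add_neg])
  rw [ord_neg, ord_algebraMap, ← sub_eq_add_neg] at h1
  have h2 : min (v.ord (x - algebraMap K F a)) (v.ord (algebraMap K F a))
      ≤ v.ord (x - algebraMap K F a + algebraMap K F a) :=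
    min_le_ord_add v (by rwa [sub_add_cancel])
  rw [ord_algebraMap, sub_add_cancel] at h2
  rcases min_le_iff.mp h2 with h | h
  · rcases min_le_iff.mp h1 with h' | h'
    · omega
    · omega
  · omega

/-- A place is not both a pole of `x` and a zero of some `x - a`. -/
theorem not_pos_of_neg (v : Place K F) {x : F} (hx : v.ord x < 0) (a : K) :
    ¬ 0 < v.ord (x - algebraMap K F a) := by
  rw [ord_sub_algebraMap_of_neg v hx a]
  omega

/-- The centre of a place on the `x`-line is unique. -/
theorem center_unique (v : Place K F) {x : F} {a b : K}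
    (ha : 0 < v.ord (x - algebraMap K F a)) (hb : 0 < v.ord (x - algebraMap K F b)) : a = b := by
  by_contra hab
  have hne : algebraMap K F (a - b) ≠ 0 := by
    simpa [sub_eq_zero] using hab
  have h0 := ord_algebraMap v (a - b)
  have hsum : (x - algebraMap K F b) + -(x - algebraMap K F a) = algebraMap K F (a - b) := by
    rw [map_sub]; ring
  have h1 := min_le_ord_add v (f := x - algebraMap K F b) (g := -(x - algebraMap K F a))
    (by rw [hsum]; exact hne)
  rw [hsum, ord_neg, h0] at h1
  rcases min_le_iff.mp h1 with h | h <;> omega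

/-- With all places of degree one, the degree of a divisor is the sum of its coefficients over
any finite set containing its support. -/
theorem degree_eq_sum_of_support_subset (hdeg : ∀ v : Place K F, v.deg = 1)
    (D : Divisor K F) (T : Finset (Place K F)) (hT : D.support ⊆ T) :
    Divisor.degree D = ∑ v ∈ T, D v := by
  classical
  have h1 : Divisor.degree D = ∑ v ∈ D.support, D v := by
    unfold Divisor.degree
    rw [Finsupp.liftAddHom_apply, Finsupp.sum]
    refine Finset.sum_congr rfl fun v _ => ?_
    simp [hdeg v]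
  rw [h1]
  refine Finset.sum_subset hT fun v _ hv => ?_
  simpa using hv

/-- If `n` places have positive orders adding up to `n`, all orders are `1`. -/
theorem eq_one_of_sum_eq_card {ι : Type*} (s : Finset ι) (e : ι → ℤ) (hpos : ∀ i ∈ s, 0 < e i)
    (hsum : ∑ i ∈ s, e i = s.card) : ∀ i ∈ s, e i = 1 := by
  classical
  have h0 : ∑ i ∈ s, (e i - 1) = 0 := by
    rw [Finset.sum_sub_distrib, hsum]; simp
  have h1 := (Finset.sum_eq_zero_iff_of_nonneg (fun i hi => by have := hpos i hi; omega)).mp h0
  intro i hi
  have := h1 i hi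
  omega

/-- **ALG4, abstract form.**  Riemann–Hurwitz bookkeeping for the function `x` of a function field
`F / K`, from the fundamental identity (`hfib`, `hfibinf`), the fact that all places have degree
one and a centre on the `x`-line, the degree of principal divisors, and the structure of
differentials (`hspan`, `hpos`, `hneg`). -/
theorem degree_divisor_differential_of (x : F) (n : ℕ)
    (hdeg : ∀ v : Place K F, v.deg = 1)
    (hcenter : ∀ v : Place K F, v.ord x < 0 ∨ ∃ a : K, 0 < v.ord (x - algebraMap K F a))
    (hfib : ∀ a : K, ∃ s : Finset (Place K F),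
      (∀ v, v ∈ s ↔ 0 < v.ord (x - algebraMap K F a)) ∧
        ∑ v ∈ s, v.ord (x - algebraMap K F a) = (n : ℤ))
    (hfibinf : ∃ s : Finset (Place K F), (∀ v, v ∈ s ↔ v.ord x < 0) ∧
        ∑ v ∈ s, v.ord x = -(n : ℤ))
    (hfin : ∀ f : F, f ≠ 0 → {v : Place K F | v.ord f ≠ 0}.Finite)
    (hprinc : ∀ f : F, f ≠ 0 → ∀ D : Divisor K F, (∀ v, D v = v.ord f) → Divisor.degree D = 0)
    (hspan : ∀ ω : Ω[F⁄K], ∃ f : F, ω = f • KaehlerDifferential.D K F x)
    (hpos : ∀ (v : Place K F) (a : K), 0 < v.ord (x - algebraMap K F a) → ∀ f : F, f ≠ 0 →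
      v.ordDifferential (f • KaehlerDifferential.D K F x)
        = v.ord f + v.ord (x - algebraMap K F a) - 1)
    (hneg : ∀ v : Place K F, v.ord x < 0 → ∀ f : F, f ≠ 0 →
      v.ordDifferential (f • KaehlerDifferential.D K F x) = v.ord f + v.ord x - 1)
    (B : Finset K) (r : K → ℕ) (rinf : ℕ)
    (hr : ∀ a ∈ B, Nat.card {v : Place K F // 0 < v.ord (x - algebraMap K F a)} = r a)
    (hgen : ∀ a, a ∉ B → Nat.card {v : Place K F // 0 < v.ord (x - algebraMap K F a)} = n)
    (hinf : Nat.card {v : Place K F // v.ord x < 0} = rinf)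
    (ω : Ω[F⁄K]) (hω : ω ≠ 0) (D : Divisor K F) (hD : ∀ v, D v = v.ordDifferential ω) :
    Divisor.degree D = ∑ a ∈ B, ((n : ℤ) - r a) - n - rinf := by
  classical
  obtain ⟨f, rfl⟩ := hspan ω
  have hf : f ≠ 0 := by rintro rfl; simp at hω
  -- the divisor of `f`
  let Df : Divisor K F := Finsupp.ofSupportFinite (fun v => v.ord f) (hfin f hf)
  have hDf : ∀ v, Df v = v.ord f := fun v => rfl
  have hdegDf : Divisor.degree Df = 0 := hprinc f hf Df hDf
  -- the difference
  set E : Divisor K F := D - Df with hE
  have hdegE : Divisor.degree D = Divisor.degree E := by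
    rw [hE, map_sub, hdegDf, sub_zero]
  -- the fibres
  choose s hs hsum using hfib
  obtain ⟨sinf, hsinf, hsuminf⟩ := hfibinf
  have hEpos : ∀ a, ∀ v ∈ s a, E v = v.ord (x - algebraMap K F a) - 1 := by
    intro a v hv
    rw [hE, Finsupp.sub_apply, hD, hDf, hpos v a ((hs a v).mp hv) f hf]
    ring
  have hEneg : ∀ v ∈ sinf, E v = v.ord x - 1 := by
    intro v hv
    rw [hE, Finsupp.sub_apply, hD, hDf, hneg v ((hsinf v).mp hv) f hf]
    ring
  have hcard : ∀ a, Nat.card {v : Place K F // 0 < v.ord (x - algebraMap K F a)} = (s a).card := by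
    intro a
    have : {v : Place K F // 0 < v.ord (x - algebraMap K F a)} = {v : Place K F // v ∈ s a} := by
      congr 1; funext v; exact propext (hs a v).symm
    rw [this, Nat.card_eq_fintype_card, Fintype.card_coe]
  have hcardinf : Nat.card {v : Place K F // v.ord x < 0} = sinf.card := by
    have : {v : Place K F // v.ord x < 0} = {v : Place K F // v ∈ sinf} := by
      congr 1; funext v; exact propext (hsinf v).symm
    rw [this, Nat.card_eq_fintype_card, Fintype.card_coe]
  -- generic fibres are unramified
  have hEgen : ∀ a, a ∉ B → ∀ v ∈ s a, E v = 0 := by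
    intro a ha v hv
    have hc : (s a).card = n := by rw [← hcard a, hgen a ha]
    have h1 := eq_one_of_sum_eq_card (s a) (fun v => v.ord (x - algebraMap K F a))
      (fun v hv => (hs a v).mp hv) (by rw [hsum a, hc]) v hv
    rw [hEpos a v hv]
    omega
  -- the support of `E`
  let T : Finset (Place K F) := B.biUnion s ∪ sinf
  have hT : E.support ⊆ T := by
    intro v hv
    rw [Finsupp.mem_support_iff] at hv
    rcases hcenter v with h | ⟨a, ha⟩
    · exact Finset.mem_union_right _ ((hsinf v).mpr h)
    · by_cases haB : a ∈ B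
      · exact Finset.mem_union_left _ (Finset.mem_biUnion.mpr ⟨a, haB, (hs a v).mpr ha⟩)
      · exact absurd (hEgen a haB v ((hs a v).mpr ha)) hv
  rw [hdegE, degree_eq_sum_of_support_subset hdeg E T hT]
  have hdisj : Disjoint (B.biUnion s) sinf := by
    rw [Finset.disjoint_left]
    intro v hv hv'
    obtain ⟨a, -, hva⟩ := Finset.mem_biUnion.mp hv
    exact not_pos_of_neg v ((hsinf v).mp hv') a ((hs a v).mp hva)
  have hpd : (↑B : Set K).PairwiseDisjoint s := by
    intro a _ b _ hab
    rw [Function.onFun, Finset.disjoint_left]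
    intro v hva hvb
    exact hab (center_unique v ((hs a v).mp hva) ((hs b v).mp hvb))
  rw [Finset.sum_union hdisj, Finset.sum_biUnion hpd]
  have h1 : ∀ a ∈ B, ∑ v ∈ s a, E v = (n : ℤ) - r a := by
    intro a ha
    rw [Finset.sum_congr rfl (hEpos a), Finset.sum_sub_distrib, hsum a, ← hr a ha, hcard a]
    simp
  have h2 : ∑ v ∈ sinf, E v = -(n : ℤ) - rinf := by
    rw [Finset.sum_congr rfl hEneg, Finset.sum_sub_distrib, hsuminf, ← hinf, hcardinf]
    simp
  rw [Finset.sum_congr rfl h1, h2]
  ring

/-- The value of `AlgebraicCurve.genus` from the degree of the divisors of differentials. -/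
theorem genus_eq_of_degree [HasCanonicalDivisor (K := K) (F := F)]
    (hex : ∃ ω : Ω[F⁄K], ω ≠ 0) (g : ℕ)
    (hdeg : ∀ (ω : Ω[F⁄K]), ω ≠ 0 → ∀ D : Divisor K F, (∀ v, D v = v.ordDifferential ω) →
      Divisor.degree D = 2 * (g : ℤ) - 2) :
    genus K F = g := by
  classical
  unfold genus
  rw [dif_pos hex, hdeg _ hex.choose_spec _ (fun v => canonicalDivisorOf_apply hex.choose_spec v)]
  omega

/-- Rational-valued version, as used in the statement S24. -/
theorem genus_cast_eq_of_degree [HasCanonicalDivisor (K := K) (F := F)]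
    (hex : ∃ ω : Ω[F⁄K], ω ≠ 0) (g : ℕ) (q : ℚ) (hq : (g : ℚ) = q)
    (hdeg : ∀ (ω : Ω[F⁄K]), ω ≠ 0 → ∀ D : Divisor K F, (∀ v, D v = v.ordDifferential ω) →
      Divisor.degree D = 2 * (g : ℤ) - 2) :
    (genus K F : ℚ) = q := by
  rw [genus_eq_of_degree hex g hdeg, hq]

end Fermat.Agent.S24.H95
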